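import Fermat.Agent.S48.Kum.InvF
import Fermat.Agent.S48.Kum.Eis
import Fermat.Agent.GAL.Tors.Dict.Dd
import Fermat.Agent.GAL.Tors.Dict.Dc

/-!
# S48 / KUM, block KA : the analytic dictionary `KumAna (ℂ(S)) Γ₁`

`Γ = ± Γ₁`, width `1`.  Ports of `GAL/Tors/Dict/{Da,Dc,Dd}.lean`.
-/

set_option autoImplicit false
set_option linter.unusedSectionVars false

open UpperHalfPlane ModularCurve AlgebraicCurve
open scoped MatrixGroups Manifold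

noncomputable section

namespace Fermat.Agent.S48.Kum

open Fermat.Agent.GAL Fermat.Agent.GAL.Tors Fermat.Agent.S24 Fermat.Agent.S48.Full

variable {Γ : Subgroup SL(2, ℤ)} [Γ.FiniteIndex] {S : Set (LaurentSeries ℂ)}
  (H : GenSet (RingHom.id ℂ) Γ 1 S) (Γ₁ : Subgroup SL(2, ℤ))

include H

/-- `SerHasChar` in terms of `H.PsiMer` (`PsiMer_eq_PsiQ`). -/
theorem serHasChar_iff (m : ℕ) (u : FS ℂ S) (χ : Γ₁ →* rootsOfUnity m ℂ) :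
    SerHasChar Γ₁ m (u : LaurentSeries ℂ) χ ↔
      ∃ x : Mer, x ^ m = H.PsiMer u ∧ ∀ γ : Γ₁, compSL (γ : SL(2, ℤ)) x =
        algebraMap ℂ Mer (((χ γ : rootsOfUnity m ℂ) : ℂˣ) : ℂ) * x := by
  constructor
  · rintro ⟨hs, x, hx, hγ⟩
    exact ⟨x, by rw [hx, PsiMer_eq_PsiQ H], hγ⟩
  · rintro ⟨x, hx, hγ⟩
    exact ⟨FS_le_MerQ H u.2, x, by rw [hx, PsiMer_eq_PsiQ H], hγ⟩

omit H in
/-- divisibility of orders passes from `u` to `a = u * b ^ m`. -/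
theorem exists_serHasChar_dvd_ord_rep {m : ℕ} {u : (FS ℂ S)ˣ} {a b : AS ℂ S}
    (hb : b ≠ 0) (hab : (u : FS ℂ S) * (b : FS ℂ S) ^ m = (a : FS ℂ S))
    (v : Place ℂ (FS ℂ S)) :
    (m : ℤ) ∣ v.ord (a : FS ℂ S) ↔ (m : ℤ) ∣ v.ord (u : FS ℂ S) := by
  have hb' : (b : FS ℂ S) ≠ 0 := fun h => hb (Subtype.ext h)
  have h1 := v.ord_zpow (b : FS ℂ S) (m : ℤ)
  rw [zpow_natCast] at h1
  rw [← hab, v.ord_mul u.ne_zero (pow_ne_zero _ hb'), h1]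
  exact (Int.dvd_add_left (dvd_mul_right _ _))

/-- (Da).  Port of `GAL.Tors.Dict.exists_hasChar` (`GAL/Tors/Dict/Da.lean`): `H.exists_rep`,
`dvd_ord_rep` (copy it for `FS ℂ S`), `GAL.Tors.exists_root`, `H.conc_orders`,
`GAL.Tors.exists_character Γ₁`, `H.conc_root_invariant w hw` (for `γ ∈ Γ₁ ≤ Γ`); conclude with
`serHasChar_iff`. -/
theorem exists_serHasChar (hle : Γ₁ ≤ Γ) (w : ℕ) [NeZero w]
    (hw : ∀ g : SL(2, ℤ), g * ModularGroup.T ^ w * g⁻¹ ∈ Γ) (m : ℕ) [NeZero m]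
    (u : (FS ℂ S)ˣ) (hu : u ∈ kummerUnits ℂ (FS ℂ S) m) :
    ∃ χ : Γ₁ →* rootsOfUnity m ℂ,
      SerHasChar Γ₁ m ((u : FS ℂ S) : LaurentSeries ℂ) χ ∧ NeTrivialG χ := by
  have hm : m ≠ 0 := NeZero.ne m
  obtain ⟨a, b, ha, hb, hab⟩ := GenSet.exists_rep m hm u
  have hdiv : ∀ v : Place ℂ (FS ℂ S), (m : ℤ) ∣ v.ord (a : FS ℂ S) := fun v =>
    (exists_serHasChar_dvd_ord_rep hb hab v).mpr (hu v)
  obtain ⟨h, hh, hpow⟩ := exists_root (H.mdifferentiable_PsiA a) m hm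
    (H.conc_orders m a ha hdiv)
  have hPa : H.PsiA a ≠ 0 := by
    intro h0
    exact ha (H.PsiA_injective (by rw [h0, map_zero]))
  have h0 : h ≠ 0 := by
    intro h0
    apply hPa
    funext τ
    rw [← hpow τ, h0]
    simp [hm]
  obtain ⟨χ, hχ⟩ := exists_character Γ₁ hh h0 (m := m) (fun γ hγ τ => by
    rw [hpow, hpow]
    exact H.PsiA_smul γ (hle hγ) a τ)
  obtain ⟨τ₁, hτ₁⟩ : ∃ τ₁, h τ₁ ≠ 0 := by
    by_contra hcon
    exact h0 (funext fun τ => by_contra fun h => hcon ⟨τ, h⟩)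
  have hb' : (b : FS ℂ S) ≠ 0 := fun h => hb (Subtype.ext h)
  have hPb : H.PsiMer (b : FS ℂ S) ≠ 0 := (map_ne_zero H.PsiMer).mpr hb'
  refine ⟨χ, (serHasChar_iff H Γ₁ m u χ).mpr
    ⟨ofHolo ⟨h, hh⟩ / H.PsiMer (b : FS ℂ S), ?_, fun γ => ?_⟩, fun γ hγ => ?_⟩
  · rw [div_pow, div_eq_iff (pow_ne_zero _ hPb), ← map_pow, ← map_pow, ← map_mul, hab,
      H.PsiMer_coe]
    congr 1
    ext τ
    exact hpow τ
  · rw [map_div₀, H.compSL_PsiMer _ (hle γ.2), (Dict.compSL_ofHolo_eq_iff _ _ _).mpr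
      (fun τ => hχ γ τ), mul_div_assoc]
  · have h1 := H.conc_root_invariant w hw m a ha hdiv h hh hpow γ (hle γ.2) hγ τ₁
    rw [hχ γ τ₁] at h1
    have h2 : (((χ γ : rootsOfUnity m ℂ) : ℂˣ) : ℂ) = 1 := by
      have := mul_right_cancel₀ hτ₁ (h1.trans (one_mul _).symm)
      exact this
    ext
    exact h2

omit H [Γ.FiniteIndex] in
theorem Ana_compSL_neg (γ : SL(2, ℤ)) (x : Mer) : compSL (-γ) x = compSL γ x := by
  have : compSL (-γ) = compSL γ := by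
    apply IsFractionRing.ringHom_ext (A := Holo)
    intro f
    change compSL (-γ) (ofHolo f) = compSL γ (ofHolo f)
    rw [compSL_ofHolo_apply, compSL_ofHolo_apply]
    congr 1
    ext τ
    rw [holoComp_apply, holoComp_apply]
    exact congrArg (f : ℍ → ℂ) (ModularGroup.SL_neg_smul γ τ)
  rw [this]

/-- (Dc).  Port of `GAL.Tors.Dict.exists_root_of_hasChar_one` (`GAL/Tors/Dict/Dc.lean`):
`exists_holo_of_pow`, `exists_pow_eq_of_invariant_root H hT`.  Invariance under `γ ∈ Γ`: either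
`γ ∈ Γ₁` or `-γ ∈ Γ₁`, and `(-γ) • τ = γ • τ`. -/
theorem exists_root_of_serHasChar_one (hpm : ∀ γ ∈ Γ, γ ∈ Γ₁ ∨ -γ ∈ Γ₁)
    (hT : ModularGroup.T ∈ Γ) (m : ℕ) [NeZero m] (u : (FS ℂ S)ˣ)
    (h : SerHasChar Γ₁ m ((u : FS ℂ S) : LaurentSeries ℂ) 1) : ∃ y : (FS ℂ S)ˣ, y ^ m = u := by
  have hm : m ≠ 0 := NeZero.ne m
  obtain ⟨x, hx, hinv⟩ := (serHasChar_iff H Γ₁ m (u : FS ℂ S) 1).1 h
  obtain ⟨a, b, ha, hb, hab⟩ := GenSet.exists_rep m hm u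
  have hb' : (b : FS ℂ S) ≠ 0 := fun h => hb (Subtype.ext h)
  -- the root of `a`
  have hx' : (x * H.PsiMer (b : FS ℂ S)) ^ m = ofHolo (H.PsiH a) := by
    rw [mul_pow, hx, ← map_pow, ← map_mul, hab, H.PsiMer_coe]
  obtain ⟨h₀, hh₀⟩ := Dict.exists_holo_of_pow hm _ _ hx'
  have hpow : ∀ τ, (h₀ : ℍ → ℂ) τ ^ m = H.PsiA a τ := by
    intro τ
    rw [hh₀, ← map_pow] at hx'
    have := ofHolo_injective hx'
    exact congrFun (congrArg Subtype.val this) τ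
  have hinvx : ∀ γ ∈ Γ, compSL γ x = x := by
    intro γ hγ
    rcases hpm γ hγ with h1 | h1
    · have := hinv ⟨γ, h1⟩
      simpa using this
    · have := hinv ⟨-γ, h1⟩
      rw [Ana_compSL_neg] at this
      simpa using this
  have hinv₀ : ∀ γ ∈ Γ, ∀ τ, (h₀ : ℍ → ℂ) (γ • τ) = (h₀ : ℍ → ℂ) τ := by
    intro γ hγ τ
    have h1 : compSL γ (ofHolo h₀) = algebraMap ℂ Mer 1 * ofHolo h₀ := by
      rw [← hh₀, map_mul, H.compSL_PsiMer γ hγ, hinvx γ hγ]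
      simp
    have := (Dict.compSL_ofHolo_eq_iff γ h₀ 1).mp h1 τ
    rwa [one_mul] at this
  obtain ⟨y, hy⟩ := exists_pow_eq_of_invariant_root H hT hm a h₀ h₀.2 hpow hinv₀
  have hy0 : y ≠ 0 := by
    rintro rfl
    rw [zero_pow hm] at hy
    exact ha (Subtype.ext hy.symm)
  refine ⟨Units.mk0 (y / (b : FS ℂ S)) (div_ne_zero hy0 hb'), ?_⟩
  ext
  rw [Units.val_pow_eq_pow_val, Units.val_mk0, div_pow, hy, ← hab,
    mul_div_assoc, div_self (pow_ne_zero _ hb'), mul_one]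

/-- (Dd).  Port of `GAL.Tors.Dict.exists_kummerUnit_of_neTrivial` (`GAL/Tors/Dict/Dd.lean`):
`exists_holo_of_char Γ₁`, `exists_mem_FS_of_invariant H hT`, `H.PsiMer_of_good` or
`PsiMer_eq_PsiQ` + `PsiQ_conv`, `H.conc_dvd_ord w hw`. -/
theorem exists_kummerUnit_of_neTrivialG [Γ₁.FiniteIndex] (hle : Γ₁ ≤ Γ)
    (hpm : ∀ γ ∈ Γ, γ ∈ Γ₁ ∨ -γ ∈ Γ₁) (hT : ModularGroup.T ∈ Γ) (w : ℕ) [NeZero w]
    (hw : ∀ g : SL(2, ℤ), g * ModularGroup.T ^ w * g⁻¹ ∈ Γ) (m : ℕ) [NeZero m]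
    (χ : Γ₁ →* rootsOfUnity m ℂ) (hχ : NeTrivialG χ) :
    ∃ u ∈ kummerUnits ℂ (FS ℂ S) m, SerHasChar Γ₁ m ((u : FS ℂ S) : LaurentSeries ℂ) χ := by
  have hm : m ≠ 0 := NeZero.ne m
  obtain ⟨h, hh, h0, hchar, hgr⟩ := exists_holo_of_char Γ₁ m χ hχ
  have hχm : ∀ γ : Γ₁, (((χ γ : rootsOfUnity m ℂ) : ℂˣ) : ℂ) ^ m = 1 := by
    intro γ
    have := (χ γ).2
    rw [_root_.mem_rootsOfUnity] at this
    rw [← Units.val_pow_eq_pow_val, this, Units.val_one]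
  -- `h ^ m` is a modular function
  obtain ⟨u₀, hu₀c, hu₀⟩ := exists_mem_FS_of_invariant H hT (fun τ => h τ ^ m) (hh.pow m)
    (fun γ hγ τ => by
      show h (γ • τ) ^ m = h τ ^ m
      rcases hpm γ hγ with h1 | h1
      · rw [hchar ⟨γ, h1⟩ τ, mul_pow, hχm, one_mul]
      · have h2 := hchar ⟨-γ, h1⟩ τ
        rw [show ((⟨-γ, h1⟩ : Γ₁) : SL(2, ℤ)) = -γ from rfl, ModularGroup.SL_neg_smul] at h2
        rw [h2, mul_pow, hχm, one_mul])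
    (fun g => by
      obtain ⟨M, hM⟩ := hgr g
      refine ⟨m * M, ?_⟩
      refine (hM.pow m).congr_right fun τ => ?_
      rw [← Real.exp_nat_mul]
      push_cast
      ring_nf)
  obtain ⟨τ₁, hτ₁⟩ : ∃ τ₁, h τ₁ ≠ 0 := by
    by_contra hcon
    exact h0 (funext fun τ => by_contra fun h => hcon ⟨τ, h⟩)
  have hu₀0 : u₀ ≠ 0 := by
    rintro rfl
    have := hu₀ τ₁
    rw [ZeroMemClass.coe_zero, evalAt_zero] at this
    exact pow_ne_zero m hτ₁ this.symm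
  let u : (FS ℂ S)ˣ := Units.mk0 u₀ hu₀0
  have hPu : H.PsiMer (u : FS ℂ S) = ofHolo ⟨h, hh⟩ ^ m := by
    rw [Units.val_mk0, PsiMer_eq_PsiQ H u₀]
    have h1 : PsiQ ⟨(u₀ : LaurentSeries ℂ), FS_le_MerQ H u₀.2⟩ =
        ofHolo (PsiC ⟨(u₀ : LaurentSeries ℂ), hu₀c⟩) := PsiQ_conv ⟨(u₀ : LaurentSeries ℂ), hu₀c⟩
    rw [h1, ← map_pow]
    congr 1
    ext τ
    exact hu₀ τ
  refine ⟨u, ?_, (serHasChar_iff H Γ₁ m (u : FS ℂ S) χ).mpr ⟨ofHolo ⟨h, hh⟩, hPu.symm, fun γ =>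
    (Dict.compSL_ofHolo_eq_iff _ _ _).mpr (fun τ => hchar γ τ)⟩⟩
  -- Kummer unit
  obtain ⟨a, b, ha, hb, hab⟩ := GenSet.exists_rep m hm u
  intro v
  have hb' : (b : FS ℂ S) ≠ 0 := fun h => hb (Subtype.ext h)
  have hrep : (m : ℤ) ∣ v.ord (a : FS ℂ S) ↔ (m : ℤ) ∣ v.ord (u : FS ℂ S) := by
    have h1 := v.ord_zpow (b : FS ℂ S) (m : ℤ)
    rw [zpow_natCast] at h1
    rw [← hab, v.ord_mul u.ne_zero (pow_ne_zero _ hb'), h1]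
    exact (Int.dvd_add_left (dvd_mul_right _ _))
  rw [← hrep]
  have hroot : ∀ τ, (h τ * H.PsiA b τ) ^ m = H.PsiA a τ := by
    intro τ
    have h1 : ofHolo (H.PsiH a) = ofHolo ((⟨h, hh⟩ : Holo) ^ m * H.PsiH b ^ m) := by
      rw [← H.PsiMer_coe, ← hab, map_mul, map_pow, hPu, H.PsiMer_coe, map_mul, map_pow, map_pow]
    have h2 := congrFun (congrArg Subtype.val (ofHolo_injective h1)) τ
    rw [mul_pow]
    exact h2.symm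
  refine H.conc_dvd_ord w hw m a ha (fun τ => h τ * H.PsiA b τ)
    (hh.mul (H.mdifferentiable_PsiA b)) hroot ?_ v
  intro γ hγ htr τ
  show h (γ • τ) * H.PsiA b (γ • τ) = _
  have hb2 : H.PsiA b (γ • τ) = H.PsiA b τ := H.PsiA_smul γ hγ b τ
  rcases hpm γ hγ with h1 | h1
  · rw [hchar ⟨γ, h1⟩ τ, hχ ⟨γ, h1⟩ htr, hb2]
    simp
  · have h2 := hchar ⟨-γ, h1⟩ τ
    rw [show ((⟨-γ, h1⟩ : Γ₁) : SL(2, ℤ)) = -γ from rfl, ModularGroup.SL_neg_smul] at h2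
    have htr' : ((((⟨-γ, h1⟩ : Γ₁) : SL(2, ℤ)) : Matrix (Fin 2) (Fin 2) ℤ)).trace ^ 2 ≤ 4 := by
      show ((-γ : SL(2, ℤ)) : Matrix (Fin 2) (Fin 2) ℤ).trace ^ 2 ≤ 4
      rw [Matrix.SpecialLinearGroup.coe_neg, Matrix.trace_neg, neg_sq]
      exact htr
    rw [h2, hχ ⟨-γ, h1⟩ htr', hb2]
    simp

/-- **Block KA.** -/
theorem kumAna_of_genSet [Γ₁.FiniteIndex] (hle : Γ₁ ≤ Γ) (hpm : ∀ γ ∈ Γ, γ ∈ Γ₁ ∨ -γ ∈ Γ₁)
    (hT : ModularGroup.T ∈ Γ) (w : ℕ) [NeZero w]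
    (hw : ∀ g : SL(2, ℤ), g * ModularGroup.T ^ w * g⁻¹ ∈ Γ) : KumAna (FS ℂ S) Γ₁ where
  le := FS_le_MerQ H
  inv x γ hγ := by
    rw [← PsiMer_eq_PsiQ H]
    exact H.compSL_PsiMer γ (hle hγ) x
  da m _ u hu := exists_serHasChar H Γ₁ hle w hw m u hu
  dc m _ u h := exists_root_of_serHasChar_one H Γ₁ hpm hT m u h
  dd m _ χ hχ := exists_kummerUnit_of_neTrivialG H Γ₁ hle hpm hT w hw m χ hχ

end Fermat.Agent.S48.Kum
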