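import Fermat.Agent.S48.Kum.Defs
import Fermat.Agent.S48.Full.MerS
import Fermat.Agent.S48.Full.Conc

/-!
# S48 / KUM, leaf KA0 : for width `h = 1` the realisation `H.PsiMer` of `ℂ(S)` is `PsiQ`
-/

set_option autoImplicit false
set_option linter.unusedSectionVars false

open UpperHalfPlane ModularCurve AlgebraicCurve
open scoped MatrixGroups Manifold

noncomputable section

namespace Fermat.Agent.S48.Kum

open Fermat.Agent.GAL Fermat.Agent.GAL.Tors Fermat.Agent.S24 Fermat.Agent.S48.Full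

variable {Γ : Subgroup SL(2, ℤ)} {S : Set (LaurentSeries ℂ)}
  (H : GenSet (RingHom.id ℂ) Γ 1 S)

include H in
/-- `ℂ(S) ≤ MerQ`.  Proof: `IntermediateField.adjoin_le_iff`; every `s ∈ S` is convergent
(`(H.good hs).1`, `coeffMap_id`), `mem_MerQ_of_isConv`. -/
theorem FS_le_MerQ : FS ℂ S ≤ MerQ := by
  rw [FS, IntermediateField.adjoin_le_iff]
  intro s hs
  apply mem_MerQ_of_isConv
  have h := (H.good hs).1
  rwa [coeffMap_id] at h

/-- `H.PsiMer = PsiQ` on `ℂ(S)`.  Proof: both sides are ring homomorphisms `FS ℂ S →+* Mer`; by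
`IsFractionRing.ringHom_ext (A := AS ℂ S)` it is enough to compare them on `a : AS ℂ S`:
`H.PsiMer_coe`, `PsiQ_conv` (for `⟨a, isConv⟩ : convSubring`), and
`H.PsiA a τ = PsiFun (RingHom.id ℂ) 1 a τ = evalAt (tq 1 τ) (coeffMap id a)`, `tq 1 τ = qParam 1 τ`
(`Nat.cast_one`), `coeffMap_id`, `PsiC_apply`. -/
theorem PsiMer_eq_PsiQ (x : FS ℂ S) :
    H.PsiMer x = PsiQ ⟨(x : LaurentSeries ℂ), FS_le_MerQ H x.2⟩ := by
  have hh : H.PsiMer = PsiQ.comp (IntermediateField.inclusion (FS_le_MerQ H)).toRingHom := by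
    apply IsFractionRing.ringHom_ext (A := AS ℂ S)
    intro a
    show H.PsiMer (a : FS ℂ S) = PsiQ (IntermediateField.inclusion (FS_le_MerQ H) (a : FS ℂ S))
    have hconv : IsConv (((a : FS ℂ S) : LaurentSeries ℂ)) := by
      have h := H.isConv_coe a
      rwa [coeffMap_id] at h
    have h1 : IntermediateField.inclusion (FS_le_MerQ H) (a : FS ℂ S) =
        algebraMap convSubring MerQ ⟨_, hconv⟩ := Subtype.ext rfl
    rw [h1, PsiQ_conv, H.PsiMer_coe]
    congr 1
    apply Subtype.ext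
    funext τ
    rw [PsiC_apply, GenSet.PsiH_apply, GenSet.PsiA_apply, PsiFun, coeffMap_id, tq, Nat.cast_one]
  exact RingHom.congr_fun hh x

end Fermat.Agent.S48.Kum
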