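import Fermat.Agent.GAL.Tors.Mer
import Fermat.Agent.GAL.Model

/-!
# S48 / KUM : definitions

Everything is formulated for *series*: `SerHasChar Γ₁ m s χ` says that the meromorphic function on
`ℍ` attached to the series `s ∈ ℂ((q))` has an `m`-th root in `Mer` transforming under `Γ₁` by the
character `χ`.  `KumAna F Γ₁` is the analytic dictionary for a subfield `F` of `ℂ((q))`
(port of the statements (D0), (Da), (Dc), (Dd) of `GAL/Tors/Boundary.lean`); being a `Prop`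
depending only on the intermediate field `F`, it can be transported along equalities
`laurentBaseChange ℂ F₀ = adjoin ℂ S`.
-/

set_option autoImplicit false

open ModularCurve AlgebraicCurve
open scoped MatrixGroups

noncomputable section

namespace Fermat.Agent.S48.Kum

open Fermat.Agent.GAL Fermat.Agent.GAL.Tors Fermat.Agent.S24

/-- The function attached to the series `s` has an `m`-th root transforming by `χ`. -/
def SerHasChar (Γ₁ : Subgroup SL(2, ℤ)) (m : ℕ) (s : LaurentSeries ℂ)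
    (χ : Γ₁ →* rootsOfUnity m ℂ) : Prop :=
  ∃ (hs : s ∈ MerQ) (x : Mer), x ^ m = PsiQ ⟨s, hs⟩ ∧
    ∀ γ : Γ₁, compSL (γ : SL(2, ℤ)) x =
      algebraMap ℂ Mer (((χ γ : rootsOfUnity m ℂ) : ℂˣ) : ℂ) * x

/-- A character kills all non hyperbolic elements. -/
def NeTrivialG {Γ₁ : Subgroup SL(2, ℤ)} {A : Type*} [Monoid A] (χ : Γ₁ →* A) : Prop :=
  ∀ γ : Γ₁, (((γ : SL(2, ℤ)) : Matrix (Fin 2) (Fin 2) ℤ)).trace ^ 2 ≤ 4 → χ γ = 1

/-- The group of characters `Γ₁ → μ_m` killing all non hyperbolic elements. -/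
def neCharsG (Γ₁ : Subgroup SL(2, ℤ)) (m : ℕ) : Subgroup (Γ₁ →* rootsOfUnity m ℂ) where
  carrier := {χ | NeTrivialG χ}
  one_mem' := fun _ _ => rfl
  mul_mem' := by
    intro a b ha hb γ hγ
    rw [MonoidHom.mul_apply, ha γ hγ, hb γ hγ, one_mul]
  inv_mem' := by
    intro a ha γ hγ
    rw [MonoidHom.inv_apply, ha γ hγ, inv_one]

theorem mem_neCharsG {Γ₁ : Subgroup SL(2, ℤ)} {m : ℕ} {χ : Γ₁ →* rootsOfUnity m ℂ} :
    χ ∈ neCharsG Γ₁ m ↔ NeTrivialG χ := Iff.rfl

/-- **The analytic dictionary** for a subfield `F` of `ℂ((q))` and a group `Γ₁`. -/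
structure KumAna (F : IntermediateField ℂ (LaurentSeries ℂ)) (Γ₁ : Subgroup SL(2, ℤ)) : Prop where
  /-- the elements of `F` are quotients of convergent series -/
  le : F ≤ MerQ
  /-- (D0) the elements of `F` are `Γ₁`-invariant -/
  inv : ∀ (x : F) (γ : SL(2, ℤ)), γ ∈ Γ₁ →
    compSL γ (PsiQ ⟨(x : LaurentSeries ℂ), le x.2⟩) = PsiQ ⟨(x : LaurentSeries ℂ), le x.2⟩
  /-- (Da) a Kummer unit has a character, killing the non hyperbolic elements -/
  da : ∀ (m : ℕ) [NeZero m] (u : Fˣ), u ∈ kummerUnits ℂ F m →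
    ∃ χ : Γ₁ →* rootsOfUnity m ℂ, SerHasChar Γ₁ m ((u : F) : LaurentSeries ℂ) χ ∧ NeTrivialG χ
  /-- (Dc) trivial character => `m`-th power -/
  dc : ∀ (m : ℕ) [NeZero m] (u : Fˣ), SerHasChar Γ₁ m ((u : F) : LaurentSeries ℂ) 1 →
    ∃ y : Fˣ, y ^ m = u
  /-- (Dd) every character killing the non hyperbolic elements occurs -/
  dd : ∀ (m : ℕ) [NeZero m] (χ : Γ₁ →* rootsOfUnity m ℂ), NeTrivialG χ →
    ∃ u ∈ kummerUnits ℂ F m, SerHasChar Γ₁ m ((u : F) : LaurentSeries ℂ) χ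

end Fermat.Agent.S48.Kum
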