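import Fermat.Agent.S48.Kum.Kappa
import Fermat.Agent.GAL.Tors.Desc.Main

/-!
# S48 / KUM, block KC : descent to `ℚ̄`
-/

set_option autoImplicit false
set_option linter.unusedSectionVars false

open ModularCurve AlgebraicCurve
open scoped MatrixGroups

noncomputable section

namespace Fermat.Agent.S48.Kum

open Fermat.Agent.GAL Fermat.Agent.GAL.Tors Fermat.Agent.S24 Fermat.Agent.Lib.RR

/-- **The Kummer isomorphism over `ℚ̄`.**  `E := κ ∘ bcKV`, `κ` from `A.exists_kappa m`,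
`Desc.bcKV iota F₀ m` bijective by `Desc.bcKV_bijective iota F₀ (NeZero.ne m) x₀ hx₀ (A.finite_KV m)`
(`AddEquiv.ofBijective`); the formula is `Desc.bcKV_mk` + `Desc.coe_bc`. -/
theorem exists_kum (F₀ : IntermediateField ℚ (LaurentSeries ℚ)) (Γ₁ : Subgroup SL(2, ℤ))
    [Γ₁.FiniteIndex] (A : KumAna (laurentBaseChange ℂ F₀) Γ₁)
    [Lib.RR.IsFF Kbar (laurentBaseChange Kbar F₀)] [Lib.RR.IsFF ℂ (laurentBaseChange ℂ F₀)]
    (x₀ : laurentBaseChange ℂ F₀) (hx₀ : (x₀ : LaurentSeries ℂ).order ≠ 0) (m : ℕ) [NeZero m] :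
    ∃ E : KV Kbar (laurentBaseChange Kbar F₀) m ≃+ Additive (neCharsG Γ₁ m),
      ∀ u : kummerUnits Kbar (laurentBaseChange Kbar F₀) m,
        SerHasChar Γ₁ m
          (coeffMap iota ((((u : (laurentBaseChange Kbar F₀)ˣ)) : laurentBaseChange Kbar F₀) :
            LaurentSeries Kbar))
          (Additive.toMul (E (KV.mk u)) : neCharsG Γ₁ m).1 := by
  obtain ⟨κ, hκ⟩ := A.exists_kappa m
  have h3 : Algebra.IsAlgebraic ℚ Kbar := AlgebraicClosure.isAlgebraic ℚ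
  have hbij := Desc.bcKV_bijective iota F₀ (NeZero.ne m) x₀ hx₀ (A.finite_KV m)
  refine ⟨(AddEquiv.ofBijective (Desc.bcKV iota F₀ m) hbij).trans κ, fun u => ?_⟩
  have h1 := hκ ⟨Units.map (Desc.bc iota F₀ : laurentBaseChange Kbar F₀ →* laurentBaseChange ℂ F₀) u,
        Desc.bc_mem_kummerUnits iota F₀ m u u.2⟩
  rw [← Desc.bcKV_mk] at h1
  exact h1

end Fermat.Agent.S48.Kum
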