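import Fermat.Agent.S48.Kum.Defs
import Fermat.Agent.GAL.Tors.HeckeMerK
import Fermat.Agent.S48.Betti.Decomp

/-!
# S48 / KUM, block KD : effect of multiplicative Hecke operators on characters
-/

set_option autoImplicit false
set_option linter.unusedSectionVars false

open ModularCurve AlgebraicCurve Matrix.SpecialLinearGroup
open scoped MatrixGroups Real

open P2MW.S_ModularForm_heckeT_slash_eq_self_of_mem_Gamma0.ModularForm.HeckeSlashInvariance

noncomputable section

namespace Fermat.Agent.S48.Kum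

open Fermat.Agent.GAL Fermat.Agent.GAL.Tors Fermat.Agent.S24

/-- (KD1) **Transfer.**  If the function of `s'` is `∏_i (function of s) ∘ α_i` and `s` has character
`χ`, then `s'` has character `γ ↦ ∏_i χ(γ'_i)` where `α_i γ = γ'_i α_{σ i}`.
Port of the second half of `GAL.Tors.HasChar.heckeK` (`GAL/Tors/HeckeMerK.lean`): the root is
`∏ i, compGL (α i) (hα i) x`. -/
theorem SerHasChar.hecke {I : Type} [Fintype I] (α : I → GL (Fin 2) ℝ)
    (hα : ∀ i, 0 < (α i).det.val) {Γ₁ : Subgroup SL(2, ℤ)} {m : ℕ} {s s' : LaurentSeries ℂ}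
    (hs : s ∈ MerQ) (hs' : s' ∈ MerQ)
    (hform : PsiQ ⟨s', hs'⟩ = ∏ i, compGL (α i) (hα i) (PsiQ ⟨s, hs⟩))
    {χ χ' : Γ₁ →* rootsOfUnity m ℂ} (h : SerHasChar Γ₁ m s χ)
    (hχ' : ∀ γ : Γ₁, ∃ (σ : Equiv.Perm I) (γ' : I → Γ₁),
      (∀ i, α i * mapGL ℝ (γ : SL(2, ℤ)) = mapGL ℝ (γ' i : SL(2, ℤ)) * α (σ i)) ∧
        χ' γ = ∏ i, χ (γ' i)) :
    SerHasChar Γ₁ m s' χ' := by
  obtain ⟨hs₀, x, hm, hγ⟩ := h
  refine ⟨hs', ∏ i, compGL (α i) (hα i) x, ?_, ?_⟩
  · rw [← Finset.prod_pow]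
    simp only [← map_pow, hm]
    exact hform.symm
  · intro γ
    obtain ⟨σ, γ', hrel, hD⟩ := hχ' γ
    have step : ∀ i : I,
        compSL (γ : SL(2, ℤ)) (compGL (α i) (hα i) x) =
          algebraMap ℂ Mer (((χ (γ' i) : rootsOfUnity m ℂ) : ℂˣ) : ℂ) *
            compGL (α (σ i)) (hα (σ i)) x := by
      intro i
      have hpos1 : 0 < (α i * mapGL ℝ (γ : SL(2, ℤ))).det.val := by
        rw [map_mul, Units.val_mul]
        exact mul_pos (hα i) (det_mapGL_pos _)
      have hpos2 : 0 < (mapGL ℝ (γ' i : SL(2, ℤ)) * α (σ i)).det.val := by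
        rw [map_mul, Units.val_mul]
        exact mul_pos (det_mapGL_pos _) (hα _)
      have e1 : compSL (γ : SL(2, ℤ)) (compGL (α i) (hα i) x)
          = compGL (α i * mapGL ℝ (γ : SL(2, ℤ))) hpos1 x :=
        compGL_compGL _ _ _ _ hpos1 x
      have e2 : compGL (α (σ i)) (hα (σ i)) (compSL (γ' i : SL(2, ℤ)) x)
          = compGL (mapGL ℝ (γ' i : SL(2, ℤ)) * α (σ i)) hpos2 x :=
        compGL_compGL _ _ _ _ hpos2 x
      rw [e1, compGL_congr (hrel i) hpos1 hpos2, ← e2, hγ, map_mul, compGL_algebraMap]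
    rw [map_prod]
    simp only [step]
    rw [Finset.prod_mul_distrib, Equiv.prod_comp σ
      (fun i => compGL (α i) (hα i) x), hD, ← map_prod]
    congr 2
    simp

/-- (KD2) From the series identity to the identity in `Mer`.  Port of `GAL.Tors.PsiMer_of_hstar`
(`GAL/Tors/HeckeMerK.lean`) with `f(q^{p²})` replaced by `f'(q^{p²})`; everything there is already
formulated with `PsiQ` (`PsiQ_qExpand`, `PsiQ_twistFun`). -/
theorem PsiQ_of_series (p : ℕ) [NeZero p] (g f f' : MerQ)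
    (h1 : qExpand ℂ p (g : LaurentSeries ℂ) =
      qExpand ℂ p (qExpand ℂ p (f' : LaurentSeries ℂ)) *
        ∏ i ∈ Finset.range p,
          twistFun (Complex.exp (2 * π * Complex.I / p) ^ i) (f : LaurentSeries ℂ)) :
    PsiQ g =
      compGL (ModularForm.heckeDiagMatrix p) (ModularForm.det_heckeDiagMatrix_pos p) (PsiQ f') *
        ∏ i ∈ Finset.range p,
          compGL (ModularForm.heckeMatrix p i) (ModularForm.det_heckeMatrix_pos p i) (PsiQ f) := by
  set D := compGL (ModularForm.heckeDiagMatrix p) (ModularForm.det_heckeDiagMatrix_pos p) with hD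
  apply D.injective
  have hpow : ∀ i : ℕ, Complex.exp (2 * π * Complex.I / p) ^ i
      = Complex.exp (2 * π * Complex.I * i / p) := by
    intro i
    rw [← Complex.exp_nat_mul]
    congr 1
    ring
  have h2 : (⟨qExpand ℂ p (g : LaurentSeries ℂ), qExpand_mem_MerQ p g.2⟩ : MerQ) =
      ⟨qExpand ℂ p (qExpand ℂ p (f' : LaurentSeries ℂ)),
        qExpand_mem_MerQ p (qExpand_mem_MerQ p f'.2)⟩ *
      ∏ i ∈ Finset.range p,
        (⟨twistFun (Complex.exp (2 * π * Complex.I * i / p)) (f : LaurentSeries ℂ),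
          twistFun_mem_MerQ (norm_exp_two_pi_div p i) f.2⟩ : MerQ) := by
    apply Subtype.ext
    have hprod : ((∏ i ∈ Finset.range p,
        (⟨twistFun (Complex.exp (2 * π * Complex.I * i / p)) (f : LaurentSeries ℂ),
          twistFun_mem_MerQ (norm_exp_two_pi_div p i) f.2⟩ : MerQ) : MerQ) : LaurentSeries ℂ)
        = ∏ i ∈ Finset.range p,
          twistFun (Complex.exp (2 * π * Complex.I * i / p)) (f : LaurentSeries ℂ) :=
      map_prod MerQ.val _ _
    rw [MulMemClass.coe_mul, hprod]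
    show qExpand ℂ p (g : LaurentSeries ℂ) = _
    rw [h1]
    congr 1
    exact Finset.prod_congr rfl fun i _ => by rw [hpow]
  have h3 : D (PsiQ g) = PsiQ ⟨qExpand ℂ p (g : LaurentSeries ℂ), qExpand_mem_MerQ p g.2⟩ :=
    (PsiQ_qExpand p g).symm
  rw [h3, h2, map_mul, map_prod, map_mul, map_prod]
  congr 1
  · have e1 := PsiQ_qExpand p ⟨qExpand ℂ p (f' : LaurentSeries ℂ), qExpand_mem_MerQ p f'.2⟩
    have e2 := PsiQ_qExpand p f'
    rw [e1, e2]
  · refine Finset.prod_congr rfl fun i _ => ?_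
    have e1 := PsiQ_twistFun p i f
    rw [e1, hD, compGL_compGL _ _ _ _ (det_heckeMatrix_mul_diag_pos p i)]

theorem det_alpha_pos {M : ℕ} [NeZero M] (p : HK.GoodPrime M) (x : OnePoint (ZMod p.1)) :
    0 < (Betti.alpha M p x).det.val := by
  have := Betti.alpha_det_pos M p x
  rwa [← Matrix.GeneralLinearGroup.val_det_apply] at this

/-- (KD3) the product over BETTI's coset representatives
`alpha M p y = Coset_dl p y * heckeRep p y` (`Coset_dl p ∞ = diaRep M p.unit`, `Coset_dl p j = 1`).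
Proof: `Fintype.prod_option` as in `GAL.Tors.prod_onePoint_heckeRep`, `prod_range_eq_prod_zmod`,
`compGL_compGL` (`compGL g (compGL g' x) = compGL (g' * g) x`, check the order there), `h2`. -/
theorem PsiQ_eq_prod_alpha {M : ℕ} [NeZero M] (p : HK.GoodPrime M) [NeZero p.1] (g f f' : MerQ)
    (h1 : qExpand ℂ p.1 (g : LaurentSeries ℂ) =
      qExpand ℂ p.1 (qExpand ℂ p.1 (f' : LaurentSeries ℂ)) *
        ∏ i ∈ Finset.range p.1,
          twistFun (Complex.exp (2 * π * Complex.I / p.1) ^ i) (f : LaurentSeries ℂ))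
    (h2 : PsiQ f' = compSL (HK.diaRep M p.unit) (PsiQ f)) :
    PsiQ g = ∏ y : OnePoint (ZMod p.1), compGL (Betti.alpha M p y) (det_alpha_pos p y) (PsiQ f) := by
  rw [PsiQ_of_series p.1 g f f' h1, h2]
  rw [prod_range_eq_prod_zmod (ℓ := p.1) (fun i =>
    compGL (ModularForm.heckeMatrix p.1 i) (ModularForm.det_heckeMatrix_pos p.1 i) (PsiQ f))]
  refine Eq.trans ?_ (Fintype.prod_option
    (fun y : OnePoint (ZMod p.1) => compGL (Betti.alpha M p y) (det_alpha_pos p y) (PsiQ f))).symm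
  congr 1
  · exact compGL_compGL _ _ _ _ (det_alpha_pos p (OnePoint.infty : OnePoint (ZMod p.1))) _
  · refine Finset.prod_congr rfl (fun j _ => ?_)
    refine compGL_congr ?_ _ _ _
    show _ = mapGL ℝ (1 : SL(2, ℤ)) * ModularForm.heckeMatrix p.1 j.val
    rw [map_one, one_mul]

end Fermat.Agent.S48.Kum
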