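import Fermat.Agent.S48.Kum.Bridge
import Fermat.Agent.GAL.Tors.Dict.InvF

/-!
# S48 / KUM, leaf KI : invariant holomorphic functions of moderate growth lie in `ℂ(S)`
-/

set_option autoImplicit false
set_option linter.unusedSectionVars false

open UpperHalfPlane ModularCurve AlgebraicCurve Filter Asymptotics
open scoped MatrixGroups Manifold Real

noncomputable section

namespace Fermat.Agent.S48.Kum

open Fermat.Agent.GAL Fermat.Agent.GAL.Tors Fermat.Agent.S24 Fermat.Agent.S48.Full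

variable {Γ : Subgroup SL(2, ℤ)} [Γ.FiniteIndex] {S : Set (LaurentSeries ℂ)}
  (H : GenSet (RingHom.id ℂ) Γ 1 S)

theorem InvF_tq_one (τ : ℍ) : tq 1 τ = Function.Periodic.qParam 1 (τ : ℂ) := by
  rw [tq, Nat.cast_one]

include H in
/-- (IF1) Port of `GAL.Tors.Dict.exists_mem_FF_of_invariant` (`GAL/Tors/Dict/InvF.lean`): replace
`Gamma0 N` by `Γ`, `goodSub_le ℂ id N` by `H.goodSub_le` (`S48/Full/GenDeg.lean`), `PsiFun` by
`Full.PsiFun (RingHom.id ℂ) 1` (`tq 1 τ = qParam 1 τ`); `hT : T ∈ Γ` is a hypothesis.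
`Full.exists_series_of_periodic` (`S48/Full/GoodCusp.lean`) may shorten the proof. -/
theorem exists_mem_FS_of_invariant (hT : ModularGroup.T ∈ Γ) (h : ℍ → ℂ) (hh : MDiff h)
    (hinv : ∀ γ ∈ Γ, ∀ τ, h (γ • τ) = h τ)
    (hgr : ∀ g : SL(2, ℤ), ∃ M : ℕ,
      (fun τ : ℍ => h (g • τ)) =O[atImInfty] fun τ : ℍ => Real.exp (2 * π * M * τ.im)) :
    ∃ y : FS ℂ S, IsConv (y : LaurentSeries ℂ) ∧
      ∀ τ : ℍ, evalAt (Function.Periodic.qParam 1 (τ : ℂ)) (y : LaurentSeries ℂ) = h τ := by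
  have hnice : h ∈ Fermat.Agent.S24.Degree.niceSubring := ⟨hh, by simpa using hgr 1⟩
  obtain ⟨a, hconv, heval⟩ := Full.exists_series_of_periodic 1 h hnice
    (fun τ => by rw [pow_one]; exact hinv _ hT τ)
  have hPsi : ∀ τ : ℍ, Full.PsiFun (RingHom.id ℂ) 1 a τ = h τ := by
    intro τ
    rw [Full.PsiFun, coeffMap_id]
    exact heval τ
  have hgood : a ∈ Full.goodSub ℂ (RingHom.id ℂ) Γ 1 := by
    refine ⟨by rw [coeffMap_id]; exact hconv, fun γ hγ τ => ?_, fun g => ?_⟩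
    · rw [hPsi, hPsi, hinv γ hγ]
    · simp only [hPsi]
      exact ⟨mdiff_comp_smul hh g, hgr g⟩
  refine ⟨⟨a, H.goodSub_le hgood⟩, hconv, fun τ => ?_⟩
  rw [← InvF_tq_one]
  exact heval τ

/-- (IF3) growth of the translates of the elements of `ℂ[S]`: `(H.good_coe a).2.2 g` says that the
translate lies in `niceSubring`; unfold it (compare `GAL.Tors.Dict.isBigO_PsiA_smul`). -/
theorem isBigO_PsiA_smul (a : AS ℂ S) (g : SL(2, ℤ)) : ∃ M : ℕ,
    (fun τ : ℍ => H.PsiA a (g • τ)) =O[atImInfty]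
      fun τ : ℍ => Real.exp (2 * π * M * τ.im) :=
  ((H.good_coe a).2.2 g).2

/-- (IF4) an invariant holomorphic `m`-th root of an element of `ℂ[S]` lies in `ℂ(S)`.  Port of
`GAL.Tors.Dict.exists_pow_eq_of_invariant_root` (uses IF1, `GAL.Tors.Dict.isBigO_of_pow`, IF3). -/
theorem exists_pow_eq_of_invariant_root (hT : ModularGroup.T ∈ Γ) {m : ℕ} (hm : m ≠ 0)
    (a : AS ℂ S) (h : ℍ → ℂ) (hh : MDiff h) (hpow : ∀ τ, h τ ^ m = H.PsiA a τ)
    (hinv : ∀ γ ∈ Γ, ∀ τ, h (γ • τ) = h τ) :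
    ∃ y : FS ℂ S, y ^ m = (a : FS ℂ S) := by
  obtain ⟨y, hconv, heval⟩ := exists_mem_FS_of_invariant H hT h hh hinv fun g =>
    Fermat.Agent.GAL.Tors.Dict.isBigO_of_pow hm (h := fun τ : ℍ => h (g • τ))
      (f := fun τ : ℍ => H.PsiA a (g • τ)) (fun τ => hpow (g • τ))
      (isBigO_PsiA_smul H a g)
  refine ⟨y, Subtype.ext ?_⟩
  have ha := H.isConv_coe a
  rw [coeffMap_id] at ha
  show ((y : LaurentSeries ℂ)) ^ m = ((a : FS ℂ S) : LaurentSeries ℂ)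
  refine eq_of_evalAt_eq (hconv.pow m) ha fun q hq hq1 => ?_
  obtain ⟨τ, rfl⟩ := exists_qParam_eq hq hq1
  rw [evalAt_pow hconv hq hq1, heval, hpow, H.PsiA_apply, Full.PsiFun, coeffMap_id, InvF_tq_one]

end Fermat.Agent.S48.Kum
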