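import Fermat.Agent.S48.Kum.Defs
import Fermat.Agent.GAL.Tors.Main

/-!
# S48 / KUM, block KB : the analytic Kummer isomorphism, abstractly from `KumAna F Γ₁`

Port of the block K of `GAL/Tors/Main.lean` (`hasChar_unique`, `HasChar.mul`, `hasChar_pow`, `kappa0`,
`kappaHom`, `kappaHom_ker`, `kappaHom_surjective`, `exists_kappa`).
-/

set_option autoImplicit false
set_option linter.unusedSectionVars false

open ModularCurve AlgebraicCurve
open scoped MatrixGroups

noncomputable section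

namespace Fermat.Agent.S48.Kum

open Fermat.Agent.GAL Fermat.Agent.GAL.Tors Fermat.Agent.S24

variable {F : IntermediateField ℂ (LaurentSeries ℂ)} {Γ₁ : Subgroup SL(2, ℤ)}

/-- (K1) the character is unique.  Port of `GAL.Tors.hasChar_unique`
(`mem_range_algebraMap_of_pow_eq_one`, `compGL_algebraMap`); `PsiQ ⟨s, hs⟩ ≠ 0` because `s ≠ 0`
(`PsiQ_injective`); the two proofs of `s ∈ MerQ` are equal (proof irrelevance). -/
theorem serHasChar_unique {m : ℕ} [NeZero m] {s : LaurentSeries ℂ} (hs0 : s ≠ 0)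
    {χ χ' : Γ₁ →* rootsOfUnity m ℂ} (h : SerHasChar Γ₁ m s χ) (h' : SerHasChar Γ₁ m s χ') :
    χ = χ' := by
  obtain ⟨hs, h₁, e₁, t₁⟩ := h
  obtain ⟨_, h₂, e₂, t₂⟩ := h'
  have hm : m ≠ 0 := NeZero.ne m
  have hu : PsiQ ⟨s, hs⟩ ≠ 0 := by
    intro h0
    have h1 : (⟨s, hs⟩ : MerQ) = 0 := PsiQ_injective (by rw [h0, map_zero])
    exact hs0 (congrArg Subtype.val h1)
  have h₁0 : h₁ ≠ 0 := by
    rintro rfl
    rw [zero_pow hm] at e₁
    exact hu e₁.symm
  have h₂0 : h₂ ≠ 0 := by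
    rintro rfl
    rw [zero_pow hm] at e₂
    exact hu e₂.symm
  obtain ⟨z, hz⟩ := mem_range_algebraMap_of_pow_eq_one (c := h₂ / h₁) hm
    (by rw [div_pow, e₁, e₂, div_self hu])
  have hz' : h₂ = algebraMap ℂ Mer z * h₁ := by rw [hz, div_mul_cancel₀ _ h₁0]
  refine MonoidHom.ext fun γ => ?_
  have e3 := t₂ γ
  have e4 : compSL (γ : SL(2, ℤ)) h₂
      = algebraMap ℂ Mer (((χ γ : rootsOfUnity m ℂ) : ℂˣ) : ℂ) * h₂ := by
    conv_lhs => rw [hz']
    rw [map_mul, t₁ γ, hz']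
    have : compSL (γ : SL(2, ℤ)) (algebraMap ℂ Mer z) = algebraMap ℂ Mer z :=
      compGL_algebraMap _ _ z
    rw [this]
    ring
  rw [e4] at e3
  have e5 := mul_right_cancel₀ h₂0 e3
  have e6 := (algebraMap ℂ Mer).injective e5
  exact Subtype.ext (Units.ext e6)

/-- (K2) multiplicativity.  Port of `GAL.Tors.HasChar.mul`. -/
theorem SerHasChar.mul {m : ℕ} {s s' : LaurentSeries ℂ} {χ χ' : Γ₁ →* rootsOfUnity m ℂ}
    (h : SerHasChar Γ₁ m s χ) (h' : SerHasChar Γ₁ m s' χ') :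
    SerHasChar Γ₁ m (s * s') (χ * χ') := by
  obtain ⟨hs, h₁, e₁, t₁⟩ := h
  obtain ⟨hs', h₂, e₂, t₂⟩ := h'
  refine ⟨MerQ.mul_mem hs hs', h₁ * h₂, ?_, fun γ => ?_⟩
  · rw [mul_pow, e₁, e₂, ← map_mul]
    rfl
  · rw [map_mul, t₁ γ, t₂ γ, MonoidHom.mul_apply, Subgroup.coe_mul, Units.val_mul, map_mul]
    ring

/-- (K3) `m`-th powers of elements of `F` have trivial character (uses `A.inv`). -/
theorem KumAna.serHasChar_pow (A : KumAna F Γ₁) (m : ℕ) (y : F) :
    SerHasChar Γ₁ m ((y : LaurentSeries ℂ) ^ m) 1 := by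
  refine ⟨MerQ.pow_mem (A.le y.2) m, PsiQ ⟨(y : LaurentSeries ℂ), A.le y.2⟩, ?_, fun γ => ?_⟩
  · rw [← map_pow]
    rfl
  · rw [A.inv y γ γ.2, MonoidHom.one_apply]
    simp

theorem Kappa_coe_ne_zero (u : Fˣ) : ((u : F) : LaurentSeries ℂ) ≠ 0 := by
  intro h
  exact u.ne_zero (Subtype.ext h)

/-- the character of a Kummer unit -/
def Kappa_kappa0 (A : KumAna F Γ₁) (m : ℕ) [NeZero m] (u : kummerUnits ℂ F m) :
    Γ₁ →* rootsOfUnity m ℂ :=
  (A.da m u u.2).choose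

theorem Kappa_kappa0_hasChar (A : KumAna F Γ₁) (m : ℕ) [NeZero m] (u : kummerUnits ℂ F m) :
    SerHasChar Γ₁ m ((((u : Fˣ)) : F) : LaurentSeries ℂ) (Kappa_kappa0 A m u) :=
  (A.da m u u.2).choose_spec.1

theorem Kappa_kappa0_neTrivial (A : KumAna F Γ₁) (m : ℕ) [NeZero m] (u : kummerUnits ℂ F m) :
    NeTrivialG (Kappa_kappa0 A m u) :=
  (A.da m u u.2).choose_spec.2

/-- the homomorphism `u ↦ χ_u` -/
def Kappa_kappaHom (A : KumAna F Γ₁) (m : ℕ) [NeZero m] : kummerUnits ℂ F m →* neCharsG Γ₁ m where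
  toFun u := ⟨Kappa_kappa0 A m u, Kappa_kappa0_neTrivial A m u⟩
  map_one' := by
    apply Subtype.ext
    have h1 := Kappa_kappa0_hasChar A m 1
    have h2 : SerHasChar Γ₁ m (((((1 : kummerUnits ℂ F m) : Fˣ)) : F) : LaurentSeries ℂ) 1 := by
      have h3 := A.serHasChar_pow m 1
      have h4 : ((1 : F) : LaurentSeries ℂ) ^ m = 1 := one_pow m
      rw [h4] at h3
      exact h3
    exact serHasChar_unique (Kappa_coe_ne_zero _) h1 h2
  map_mul' u v := by
    apply Subtype.ext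
    exact serHasChar_unique (Kappa_coe_ne_zero _) (Kappa_kappa0_hasChar A m (u * v))
      ((Kappa_kappa0_hasChar A m u).mul (Kappa_kappa0_hasChar A m v))

theorem Kappa_kappaHom_ker (A : KumAna F Γ₁) (m : ℕ) [NeZero m] :
    (Kappa_kappaHom A m).ker = kummerPowers ℂ F m := by
  ext u
  rw [MonoidHom.mem_ker, kummerPowers, Subgroup.mem_subgroupOf, MonoidHom.mem_range]
  constructor
  · intro h
    have h1 : Kappa_kappa0 A m u = 1 := congrArg Subtype.val h
    have h2 := Kappa_kappa0_hasChar A m u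
    rw [h1] at h2
    exact A.dc m u h2
  · rintro ⟨y, hy⟩
    apply Subtype.ext
    have hy' : y ^ m = (u : Fˣ) := hy
    have h2 := A.serHasChar_pow m (y : F)
    have h3 : ((y : F) : LaurentSeries ℂ) ^ m = (((u : Fˣ) : F) : LaurentSeries ℂ) := by
      rw [← hy']
      rfl
    rw [h3] at h2
    exact serHasChar_unique (Kappa_coe_ne_zero _) (Kappa_kappa0_hasChar A m u) h2

theorem Kappa_kappaHom_surjective (A : KumAna F Γ₁) (m : ℕ) [NeZero m] :
    Function.Surjective (Kappa_kappaHom A m) := by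
  rintro ⟨χ, hχ⟩
  obtain ⟨u, hu, h⟩ := A.dd m χ hχ
  exact ⟨⟨u, hu⟩, Subtype.ext
    (serHasChar_unique (Kappa_coe_ne_zero _) (Kappa_kappa0_hasChar A m ⟨u, hu⟩) h)⟩

/-- (K5) **the analytic Kummer isomorphism** `V_m(F) ≃ Hom_ne(Γ₁, μ_m)`.  Port of
`GAL.Tors.exists_kappa` (with `kappa0`, `kappaHom`, `kappaHom_ker`, `kappaHom_surjective`), using
`A.da`, `A.dc`, `A.dd`, (K1)-(K3). -/
theorem KumAna.exists_kappa (A : KumAna F Γ₁) (m : ℕ) [NeZero m] :
    ∃ κ : KV ℂ F m ≃+ Additive (neCharsG Γ₁ m),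
      ∀ u : kummerUnits ℂ F m,
        SerHasChar Γ₁ m ((((u : Fˣ)) : F) : LaurentSeries ℂ)
          (Additive.toMul (κ (KV.mk u)) : neCharsG Γ₁ m).1 := by
  let e : (kummerUnits ℂ F m ⧸ kummerPowers ℂ F m) ≃* neCharsG Γ₁ m :=
    (QuotientGroup.quotientMulEquivOfEq (Kappa_kappaHom_ker A m).symm).trans
      (QuotientGroup.quotientKerEquivOfSurjective (Kappa_kappaHom A m)
        (Kappa_kappaHom_surjective A m))
  refine ⟨MulEquiv.toAdditive e, fun u => ?_⟩
  exact Kappa_kappa0_hasChar A m u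

/-- A subgroup of finite index of `SL₂(ℤ)` is finitely generated, so it has finitely many
homomorphisms to a finite group.  Proof: `SL₂(ℤ)` is generated by `S, T`
(`Matrix.SpecialLinearGroup.SL2Z_generators` / `ModularGroup` API: `Subgroup.closure {S, T} = ⊤`), so
`Group.FG SL(2, ℤ)`; `Subgroup.fg_of_index_ne_zero`; a homomorphism is determined by its values on a
finite generating set (`MonoidHom.eqOn_closure` / `Finite.of_injective` into `(t → rootsOfUnity m ℂ)`).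
`S48/Betti/Lattice.lean` already proves that `Γ₁(M)` is finitely generated: reuse its argument. -/
theorem finite_hom_rootsOfUnity (Γ₁ : Subgroup SL(2, ℤ)) [Γ₁.FiniteIndex] (m : ℕ) [NeZero m] :
    Finite (Γ₁ →* rootsOfUnity m ℂ) := by
  have h0 : Group.FG SL(2, ℤ) := by
    rw [Group.fg_iff]
    exact ⟨{ModularGroup.S, ModularGroup.T}, _root_.SpecialLinearGroup.SL2Z_generators, by simp⟩
  have h : Group.FG Γ₁ := inferInstance
  obtain ⟨t, ht, htf⟩ := Group.fg_iff.1 h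
  have := htf.to_subtype
  have hfin : Finite (rootsOfUnity m ℂ) := inferInstance
  refine Finite.of_injective
    (fun (χ : Γ₁ →* rootsOfUnity m ℂ) (x : t) => χ x.1) ?_
  intro χ χ' hχ
  apply MonoidHom.eq_of_eqOn_dense ht
  intro x hx
  exact congrFun hχ ⟨x, hx⟩

theorem KumAna.finite_KV [Γ₁.FiniteIndex] (A : KumAna F Γ₁) (m : ℕ) [NeZero m] :
    Finite (KV ℂ F m) := by
  obtain ⟨κ, -⟩ := A.exists_kappa m
  have := finite_hom_rootsOfUnity Γ₁ m
  have h2 : Finite (Additive (neCharsG Γ₁ m)) :=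
    inferInstanceAs (Finite (neCharsG Γ₁ m))
  exact Finite.of_equiv _ κ.symm.toEquiv

end Fermat.Agent.S48.Kum
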