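import Fermat.Agent.S48.Kum.Ana
import Fermat.Agent.S48.Kum.Desc
import Fermat.Agent.S48.Kum.Hecke
import Fermat.Agent.S48.ModL2.Ops
import Fermat.Agent.S48.Full.Main
import Fermat.Agent.S48.Betti.Main

/-!
# S48 / KUM : main theorem

For every level `M` and `m ≥ 1` : `V = KV Kbar (F1 Kbar M) m` is finite and there is an injective
homomorphism `e : (ℤ/m)^r → V` (`r = bettiRank1 M`) intertwining BETTI's matrices with `T_p`, `⟨p⟩`.
-/

set_option autoImplicit false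
set_option linter.unusedSectionVars false

open ModularCurve AlgebraicCurve CongruenceSubgroup
open scoped MatrixGroups

noncomputable section

namespace Fermat.Agent.S48.Kum

open Fermat.Agent.GAL Fermat.Agent.GAL.Tors Fermat.Agent.S24 Fermat.Agent.S48.Full
  Fermat.Agent.S48.Betti

variable (M : ℕ) [NeZero M]

/-- (KM1) The analytic dictionary for `F1 ℂ M` and `Γ₁(M)`.  Proof: rewrite with `F1_eq ℂ M`
(`F1C ℂ M` unfolds to `FS ℂ (gens1 ℂ M)`), then
`kumAna_of_genSet (genSet_F1 (RingHom.id ℂ) M) (Gamma1 M) (Gamma1_le_Gamma1PM M) (fun γ h => h) hT M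
  (conj_T_pow_mem_Gamma1PM M)`, `hT : T ∈ Gamma1PM M` because `T ∈ Gamma1 M`;
`(Gamma1 M).FiniteIndex` is a Mathlib instance. -/
theorem kumAna_F1 : KumAna (F1 ℂ M) (Gamma1 M) := by
  rw [F1_eq ℂ M]
  have hT : ModularGroup.T ∈ Gamma1PM M := Or.inl (by
    rw [Gamma1_mem]
    simp [ModularGroup.T])
  exact kumAna_of_genSet (genSet_F1 (RingHom.id ℂ) M) (Gamma1 M) (Gamma1_le_Gamma1PM M)
    (fun γ h => h) hT M (conj_T_pow_mem_Gamma1PM M)

/-- (KM2) an element of `F1 ℂ M` of non zero order: `j(q) = jM ℂ 1 ∈ gens1 ℂ M`, of order `-1`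
(compare the end of `GAL/Tors/Desc/Main.lean`, `bcKV_bijective_modular`; `jM ℂ 1 = qExpand ℂ 1 (jqModC ℂ)`). -/
theorem exists_order_ne_zero : ∃ x₀ : F1 ℂ M, (x₀ : LaurentSeries ℂ).order ≠ 0 := by
  have hmem : jM ℂ 1 ∈ F1 ℂ M := by
    rw [F1_eq ℂ M]
    exact IntermediateField.subset_adjoin _ _ (Or.inl rfl)
  refine ⟨⟨jM ℂ 1, hmem⟩, ?_⟩
  show (jM ℂ 1).order ≠ 0
  have h1 : jM ℂ 1 = jqModC ℂ := qExpand_one_apply _
  have h := Fermat.Agent.S28.orderTop_jqModC ℂ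
  have h0 : jqModC ℂ ≠ 0 := jqModC_ne_zero_of_nontrivial ℂ
  rw [HahnSeries.orderTop_of_ne_zero h0] at h
  have h2 : (jqModC ℂ).order = -1 := by
    rw [HahnSeries.order_of_ne h0]
    exact_mod_cast h
  rw [h1, h2]
  norm_num

/-- The Kummer isomorphism for `F1 Kbar M`. -/
theorem exists_kum_F1 (m : ℕ) [NeZero m] :
    ∃ E : KV Kbar (F1 Kbar M) m ≃+ Additive (neCharsG (Gamma1 M) m),
      ∀ u : kummerUnits Kbar (F1 Kbar M) m,
        SerHasChar (Gamma1 M) m
          (coeffMap iota ((((u : (F1 Kbar M)ˣ)) : F1 Kbar M) : LaurentSeries Kbar))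
          (Additive.toMul (E (KV.mk u)) : neCharsG (Gamma1 M) m).1 := by
  obtain ⟨x₀, hx₀⟩ := exists_order_ne_zero M
  exact exists_kum (F1₀ M) (Gamma1 M) (kumAna_F1 M) x₀ hx₀ m

theorem coeffMap_iota_mem_MerQ (f : F1 Kbar M) :
    coeffMap iota (f : LaurentSeries Kbar) ∈ MerQ :=
  (kumAna_F1 M).le (Desc.coeffMap_mem_baseChange iota f.2)

variable {M}

/-- (KM3) the character of `N_p u`.  Proof: `SerHasChar.hecke (Betti.alpha M p) (det_alpha_pos p)`
with `hform := PsiQ_eq_prod_alpha p ⟨_, _⟩ ⟨_, _⟩ ⟨_, _⟩ h1 (O.Dp_mer p u _ _)`, where `h1` is the image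
under `coeffMap iota` of `O.Np_series p ζ hζ u` for the primitive root `ζ : Kbar` with
`iota ζ = exp (2πi/p)` (copy the argument of `GAL.Tors.PsiMer_bcHom_heckeNorm`,
`GAL/Tors/HeckeMerK.lean`: `coeffMap_qExpand`, `map_mul`, `map_prod`).  The decomposition: `D.σ`, `D.γ'`,
`D.rel`. -/
theorem serHasChar_Np (O : Ops1 M) (p : HK.GoodPrime M) [NeZero p.1] {m : ℕ} (u : F1 Kbar M)
    {χ χ' : Gamma1 M →* rootsOfUnity m ℂ}
    (h : SerHasChar (Gamma1 M) m (coeffMap iota (u : LaurentSeries Kbar)) χ)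
    (hχ' : ∀ γ : Gamma1 M, ∃ D : HeckeDecomp1 M p γ, χ' γ = ∏ y, χ (D.γ' y)) :
    SerHasChar (Gamma1 M) m (coeffMap iota ((O.Np p u : F1 Kbar M) : LaurentSeries Kbar)) χ' := by
  have hs := coeffMap_iota_mem_MerQ M u
  have hs' := coeffMap_iota_mem_MerQ M (O.Np p u)
  have hsD := coeffMap_iota_mem_MerQ M (O.Dp p u)
  have h1 : qExpand ℂ p.1 (coeffMap iota ((O.Np p u : F1 Kbar M) : LaurentSeries Kbar)) =
      qExpand ℂ p.1 (qExpand ℂ p.1 (coeffMap iota ((O.Dp p u : F1 Kbar M) : LaurentSeries Kbar))) *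
        ∏ i ∈ Finset.range p.1,
          twistFun (Complex.exp (2 * Real.pi * Complex.I / p.1) ^ i)
            (coeffMap iota (u : LaurentSeries Kbar)) := by
    have hζC : IsPrimitiveRoot (Complex.exp (2 * Real.pi * Complex.I / p.1)) p.1 :=
      Complex.isPrimitiveRoot_exp p.1 (NeZero.ne p.1)
    have : NeZero ((p.1 : ℕ) : Kbar) := ⟨by exact_mod_cast NeZero.ne p.1⟩
    obtain ⟨ζ₀, hζ₀⟩ : ∃ ζ : Kbar, IsPrimitiveRoot ζ p.1 :=
      HasEnoughRootsOfUnity.exists_primitiveRoot Kbar p.1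
    have hζ₀' : IsPrimitiveRoot (iota ζ₀) p.1 := hζ₀.map_of_injective iota.injective
    obtain ⟨k, -, hk, hkζ⟩ := hζ₀'.isPrimitiveRoot_iff.mp hζC
    have hζ : IsPrimitiveRoot (ζ₀ ^ k) p.1 := hζ₀.pow_of_coprime k hk
    have hiota : iota (ζ₀ ^ k) = Complex.exp (2 * Real.pi * Complex.I / p.1) := by
      rw [map_pow, hkζ]
    rw [← ModularCurve.coeffMap_qExpand, O.Np_series p _ hζ u, map_mul, map_prod,
      ModularCurve.coeffMap_qExpand,
      ModularCurve.coeffMap_qExpand]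
    congr 1
    refine Finset.prod_congr rfl fun i _ => ?_
    rw [← hiota]
    ext n
    simp
  refine SerHasChar.hecke (Betti.alpha M p) (det_alpha_pos p) hs hs'
    (PsiQ_eq_prod_alpha p ⟨_, hs'⟩ ⟨_, hs⟩ ⟨_, hsD⟩ h1 (O.Dp_mer p u _ _)) h ?_
  intro γ
  obtain ⟨D, hD⟩ := hχ' γ
  exact ⟨D.σ, D.γ', D.rel, hD⟩

/-- (KM4) the character of `⟨p⟩ u`.  Proof: if `x ^ m = Ψ u` then `(compSL δ x) ^ m = Ψ (⟨p⟩u)`
(`O.Dp_mer`), `δ = HK.diaRep M p.unit`, and `compSL γ (compSL δ x) = compSL (δ γ) x = compSL (γ' δ) x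
= compSL δ (compSL γ' x) = χ γ' • compSL δ x` (`compSL_mul`: check the order of composition there).
(Or `SerHasChar.hecke` with `I = Unit`.) -/
theorem serHasChar_Dp (O : Ops1 M) (p : HK.GoodPrime M) {m : ℕ} (u : F1 Kbar M)
    {χ χ' : Gamma1 M →* rootsOfUnity m ℂ}
    (h : SerHasChar (Gamma1 M) m (coeffMap iota (u : LaurentSeries Kbar)) χ)
    (hχ' : ∀ γ : Gamma1 M, ∃ γ' : Gamma1 M,
      HK.diaRep M p.unit * (γ : SL(2, ℤ)) = (γ' : SL(2, ℤ)) * HK.diaRep M p.unit ∧ χ' γ = χ γ') :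
    SerHasChar (Gamma1 M) m (coeffMap iota ((O.Dp p u : F1 Kbar M) : LaurentSeries Kbar)) χ' := by
  obtain ⟨hs, x, hx, hγ⟩ := h
  have hs' := coeffMap_iota_mem_MerQ M (O.Dp p u)
  refine ⟨hs', compSL (HK.diaRep M p.unit) x, ?_, fun γ => ?_⟩
  · rw [← map_pow, hx]
    exact (O.Dp_mer p u hs' hs).symm
  · obtain ⟨γ', hrel, hχ⟩ := hχ' γ
    rw [← compSL_mul, hrel, compSL_mul, hγ γ', map_mul, hχ]
    congr 1
    exact compGL_algebraMap _ _ _

/-- **Block KUM.**  Proof (port of the end of `GAL.Tors.nonempty_torsDatum`, `GAL/Tors/Main.lean`):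
`E` from `exists_kum_F1 M m`; `neCharsG (Gamma1 M) m` and `Betti.neChars1 M m` are the same subgroup
(definitionally: `NeTrivialG` vs `NeTrivial1`); `e := E.symm ∘ charOf1 M m`; injective by
`charOf1_injective`.  Finite: `E` + `finite_hom_rootsOfUnity`.  `e_T`: apply `E` to both sides; write `e x = KV.mk u`;
`u` has character `chiOf1 M m x`; by `serHasChar_Np` + `chiOf1_T` + `nonempty_heckeDecomp1` the series of
`N_p u` has character `chiOf1 M m (TΛ x)`; it also has character `E (KV.mk (N_p u))`; `serHasChar_unique`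
(the series is non zero: `u` is a unit and `coeffMap iota` is injective).  `e_R`: the same with `serHasChar_Dp`, `chiOf1_D`
(`δ = HK.diaRep M p.unit`, `HK.diaRep_mem`, `HK.diaRep_apply`, `γ' = conjElt`, `conjElt_spec`). -/
theorem exists_e (O : Ops1 M) (m : ℕ) [NeZero m] :
    Finite (KV Kbar (F1 Kbar M) m) ∧
    ∃ e : (Fin (bettiRank1 M) → ZMod m) →+ KV Kbar (F1 Kbar M) m, Function.Injective e ∧
      (∀ (p : HK.GoodPrime M) (x : Fin (bettiRank1 M) → ZMod m),
        e (((bettiT1 M p).map (Int.castRingHom (ZMod m))).mulVec x) = O.TV m p (e x)) ∧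
      (∀ (p : HK.GoodPrime M) (x : Fin (bettiRank1 M) → ZMod m),
        e (((bettiD1 M p.unit).map (Int.castRingHom (ZMod m))).mulVec x) = O.RV m p (e x)) := by
  obtain ⟨E, hE⟩ := exists_kum_F1 M m
  let c : (Fin (bettiRank1 M) → ZMod m) →+ Additive (neCharsG (Gamma1 M) m) := charOf1 M m
  have hcinj : Function.Injective c := charOf1_injective M m
  have hne : ∀ v : (F1 Kbar M)ˣ,
      coeffMap iota (((v : (F1 Kbar M)ˣ) : F1 Kbar M) : LaurentSeries Kbar) ≠ 0 := by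
    intro v h0
    have h1 : (((v : (F1 Kbar M)ˣ) : F1 Kbar M) : LaurentSeries Kbar) = 0 :=
      (map_eq_zero (coeffMap iota)).1 h0
    exact v.ne_zero (Subtype.ext h1)
  refine ⟨?_, E.symm.toAddMonoidHom.comp c, E.symm.injective.comp hcinj, ?_, ?_⟩
  · have := finite_hom_rootsOfUnity (Gamma1 M) m
    have h2 : Finite (Additive (neCharsG (Gamma1 M) m)) :=
      inferInstanceAs (Finite (neCharsG (Gamma1 M) m))
    exact Finite.of_equiv _ E.symm.toEquiv
  · intro p x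
    have : NeZero p.1 := ⟨p.2.1.ne_zero⟩
    obtain ⟨u, hu⟩ := KV.mk_surjective (E.symm (c x))
    change E.symm (c _) = O.TV m p (E.symm (c x))
    rw [← hu, O.TV_mk, AddEquiv.symm_apply_eq]
    apply Additive.toMul.injective
    apply Subtype.ext
    have h1 := hE u
    rw [hu, E.apply_symm_apply] at h1
    have h2 := serHasChar_Np O p (((u : (F1 Kbar M)ˣ)) : F1 Kbar M)
      (χ' := chiOf1 M m (((bettiT1 M p).map (Int.castRingHom (ZMod m))).mulVec x)) h1
      (fun γ => by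
        obtain ⟨D⟩ := nonempty_heckeDecomp1 M p γ
        exact ⟨D, chiOf1_T M m p x γ D⟩)
    have h3 := hE ⟨Units.map (O.Np p) u, O.Np_pres p m u u.2⟩
    exact serHasChar_unique (hne (Units.map (O.Np p) u)) h2 h3
  · intro p x
    obtain ⟨u, hu⟩ := KV.mk_surjective (E.symm (c x))
    change E.symm (c _) = O.RV m p (E.symm (c x))
    rw [← hu, O.RV_mk, AddEquiv.symm_apply_eq]
    apply Additive.toMul.injective
    apply Subtype.ext
    have h1 := hE u
    rw [hu, E.apply_symm_apply] at h1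
    have h2 := serHasChar_Dp O p (((u : (F1 Kbar M)ˣ)) : F1 Kbar M)
      (χ' := chiOf1 M m (((bettiD1 M p.unit).map (Int.castRingHom (ZMod m))).mulVec x)) h1
      (fun γ => ⟨conjElt M (HK.diaRep_mem M p.unit) γ, conjElt_spec M (HK.diaRep_mem M p.unit) γ,
        chiOf1_D M m p.unit x (HK.diaRep_mem M p.unit) (HK.diaRep_apply M p.unit) γ _
          (conjElt_spec M (HK.diaRep_mem M p.unit) γ)⟩)
    have h3 := hE ⟨Units.map (O.Dp p) u, O.Dp_pres p m u u.2⟩
    exact serHasChar_unique (hne (Units.map (O.Dp p) u)) h2 h3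

end Fermat.Agent.S48.Kum
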